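import Mathlib.Algebra.BigOperators.Ring.Finset
import Mathlib.Algebra.Order.Ring.Abs
import Mathlib.Data.Nat.Digits.Lemmas
import Mathlib.Tactic.LinearCombination
import Mathlib.Tactic.Linarith
import Mathlib.Tactic.Ring

/-!
# Binary digit sums of the multiples of three

With `w n = 2` at the multiples of `3` and `-1` elsewhere, `D N = ∑_{n < N} (-1) ^ s(n) w n` is
multiplied by `3` when `N` is by `4`.
-/

set_option autoImplicit false

open Finset

namespace FA.NewmanDigits

/-- The sign of the binary digit sum. -/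
def sgn (n : ℕ) : ℤ := (-1) ^ (Nat.digits 2 n).sum

/-- `2` at the multiples of `3`, `-1` elsewhere. -/
def wt (n : ℕ) : ℤ := if n % 3 = 0 then 2 else -1

theorem sgn_two_mul_add (n b : ℕ) (hb : b < 2) : sgn (2 * n + b) = sgn n * (-1) ^ b := by
  rcases Nat.eq_zero_or_pos (2 * n + b) with h | h
  · obtain ⟨rfl, rfl⟩ : n = 0 ∧ b = 0 := by omega
    simp [sgn]
  · rw [sgn, Nat.digits_def' (by norm_num) h, List.sum_cons, show (2 * n + b) % 2 = b by omega,
      show (2 * n + b) / 2 = n by omega, pow_add, sgn, mul_comm]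

theorem sgn_four (n : ℕ) : sgn (4 * n) = sgn n ∧ sgn (4 * n + 1) = -sgn n ∧
    sgn (4 * n + 2) = -sgn n ∧ sgn (4 * n + 3) = sgn n := by
  have h0 := sgn_two_mul_add (2 * n) 0 (by norm_num)
  have h1 := sgn_two_mul_add (2 * n) 1 (by norm_num)
  have h2 := sgn_two_mul_add (2 * n + 1) 0 (by norm_num)
  have h3 := sgn_two_mul_add (2 * n + 1) 1 (by norm_num)
  have e0 := sgn_two_mul_add n 0 (by norm_num)
  have e1 := sgn_two_mul_add n 1 (by norm_num)
  simp only [pow_zero, pow_one, add_zero, mul_one, mul_neg] at h0 h1 h2 h3 e0 e1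
  rw [show 4 * n = 2 * (2 * n) by ring, show 2 * (2 * n) + 2 = 2 * (2 * n + 1) by ring,
    show 2 * (2 * n) + 3 = 2 * (2 * n + 1) + 1 by ring, h0, h1, h2, h3, e0, e1, neg_neg]
  exact ⟨rfl, rfl, rfl, rfl⟩

theorem sgn_eq_or (n : ℕ) : sgn n = 1 ∨ sgn n = -1 := neg_one_pow_eq_or ℤ _

theorem sgn_eq_ite (n : ℕ) : sgn n = if Even (Nat.digits 2 n).sum then 1 else -1 := by
  rw [sgn]
  split_ifs with h
  · exact h.neg_one_pow
  · exact (Nat.not_even_iff_odd.1 h).neg_one_pow

/-- The plain sum. -/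
def plainSum (N : ℕ) : ℤ := ∑ n ∈ range N, sgn n

/-- The weighted sum. -/
def weightSum (N : ℕ) : ℤ := ∑ n ∈ range N, sgn n * wt n

/-- The excess of even digit sums among the multiples of `3`. -/
def excess (N : ℕ) : ℤ := ∑ n ∈ (range N).filter (fun n => n % 3 = 0), sgn n

theorem three_mul_excess (N : ℕ) : 3 * excess N = plainSum N + weightSum N := by
  rw [excess, sum_filter, mul_sum, plainSum, weightSum, ← sum_add_distrib]
  refine sum_congr rfl fun n _ => ?_
  rw [wt]
  split_ifs <;> ring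

theorem abs_plainSum_le (N : ℕ) : |plainSum N| ≤ 1 ∧ plainSum (2 * N) = 0 := by
  have h : ∀ m, plainSum (2 * m) = 0 := by
    intro m
    induction m with
    | zero => rfl
    | succ m ih =>
      rw [Nat.mul_succ, plainSum, sum_range_succ, sum_range_succ, ← plainSum, ih,
        sgn_two_mul_add m 1 (by norm_num)]
      have := sgn_two_mul_add m 0 (by norm_num)
      simp only [add_zero, pow_zero, mul_one] at this
      rw [this]
      ring
  refine ⟨?_, h N⟩
  obtain ⟨m, rfl | rfl⟩ := Nat.even_or_odd' N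
  · simp [h]
  · rw [plainSum, sum_range_succ, ← plainSum, h, zero_add]
    rcases sgn_eq_or (2 * m) with e | e <;> simp [e]

theorem wt_cases (n : ℕ) : wt (4 * n) = wt n ∧ wt (4 * n + 1) = wt (n + 1) ∧
    wt (4 * n + 2) = wt (n + 2) ∧ wt (4 * n + 3) = wt n ∧ wt n + wt (n + 1) + wt (n + 2) = 0 := by
  simp only [wt]
  refine ⟨?_, ?_, ?_, ?_, ?_⟩ <;> split_ifs <;> omega

/-- The functional equation. -/
theorem weightSum_four_mul (N : ℕ) : weightSum (4 * N) = 3 * weightSum N := by
  induction N with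
  | zero => rfl
  | succ N ih =>
    obtain ⟨s0, s1, s2, s3⟩ := sgn_four N
    obtain ⟨w0, w1, w2, w3, w⟩ := wt_cases N
    have e : weightSum (4 * (N + 1)) = weightSum (4 * N) + sgn (4 * N) * wt (4 * N) +
        sgn (4 * N + 1) * wt (4 * N + 1) + sgn (4 * N + 2) * wt (4 * N + 2) +
        sgn (4 * N + 3) * wt (4 * N + 3) := by
      rw [Nat.mul_succ, weightSum, sum_range_succ, sum_range_succ, sum_range_succ, sum_range_succ,
        ← weightSum]
    have e' : weightSum (N + 1) = weightSum N + sgn N * wt N := sum_range_succ _ _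
    rw [e, e', ih, s0, s1, s2, s3, w0, w1, w2, w3]
    linear_combination (-sgn N) * w

theorem abs_step (N j : ℕ) (hj : j < 4) :
    |weightSum (4 * N + j) - 3 * weightSum N| ≤ 4 := by
  obtain ⟨s0, s1, s2, s3⟩ := sgn_four N
  obtain ⟨w0, w1, w2, w3, w⟩ := wt_cases N
  have hw : ∀ m, wt m = 2 ∨ wt m = -1 := fun m => by simp only [wt]; split_ifs <;> simp
  have h1 := hw N
  have h2 := hw (N + 1)
  have h3 := hw (N + 2)
  rw [← weightSum_four_mul]
  rcases (show j = 0 ∨ j = 1 ∨ j = 2 ∨ j = 3 by omega) with rfl | rfl | rfl | rfl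
  · simp
  · rw [weightSum, sum_range_succ, ← weightSum, s0, w0, add_sub_cancel_left]
    rcases sgn_eq_or N with e | e <;> rw [e, abs_le] <;> omega
  · rw [weightSum, sum_range_succ, sum_range_succ, ← weightSum, s0, w0, s1, w1, abs_le]
    rcases sgn_eq_or N with e | e <;> rw [e] <;> omega
  · rw [weightSum, sum_range_succ, sum_range_succ, sum_range_succ, ← weightSum, s0, w0, s1, w1, s2,
      w2, abs_le]
    rcases sgn_eq_or N with e | e <;> rw [e] <;> omega

theorem sgn_small : sgn 0 = 1 ∧ sgn 1 = -1 ∧ sgn 2 = -1 ∧ sgn 3 = 1 ∧ sgn 4 = -1 ∧ sgn 5 = 1 ∧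
    sgn 6 = 1 := by
  simp [sgn]

theorem weightSum_small (N : ℕ) (h2 : 2 ≤ N) (h8 : N < 8) :
    3 ≤ weightSum N ∧ weightSum N ≤ 8 := by
  obtain ⟨a0, a1, a2, a3, a4, a5, a6⟩ := sgn_small
  rcases (show N = 2 ∨ N = 3 ∨ N = 4 ∨ N = 5 ∨ N = 6 ∨ N = 7 by omega) with
    rfl | rfl | rfl | rfl | rfl | rfl <;>
  simp [weightSum, sum_range_succ, wt, a0, a1, a2, a3, a4, a5, a6]

/-- The growth of the weighted sum. -/
theorem exists_weightSum_bounds (N : ℕ) (hN : 2 ≤ N) :
    ∃ k : ℕ, 4 ^ k ≤ N ∧ N < 8 * 4 ^ k ∧ 3 ^ k + 2 ≤ weightSum N ∧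
      weightSum N + 2 ≤ 10 * 3 ^ k := by
  induction N using Nat.strong_induction_on with
  | _ N ih =>
    rcases lt_or_ge N 8 with h8 | h8
    · obtain ⟨h1, h2⟩ := weightSum_small N hN h8
      exact ⟨0, by omega, by omega, by simpa using h1, by norm_num; linarith⟩
    obtain ⟨k, hk1, hk2, hk3, hk4⟩ := ih (N / 4) (by omega) (by omega)
    obtain ⟨hlo, hhi⟩ := abs_le.1 (abs_step (N / 4) (N % 4) (Nat.mod_lt _ (by norm_num)))
    rw [Nat.div_add_mod] at hlo hhi
    refine ⟨k + 1, ?_, ?_, ?_, ?_⟩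
    · rw [pow_succ]
      omega
    · rw [pow_succ]
      omega
    · rw [pow_succ]
      linarith
    · rw [pow_succ]
      linarith

theorem excess_pos {N : ℕ} (hN : 1 ≤ N) : 0 < excess N := by
  rcases eq_or_lt_of_le hN with rfl | h2
  · simp [excess, sgn, Finset.filter_singleton]
  · obtain ⟨k, -, -, hk, -⟩ := exists_weightSum_bounds N h2
    have h := three_mul_excess N
    have := (abs_le.1 (abs_plainSum_le N).1).1
    have : (1 : ℤ) ≤ 3 ^ k := one_le_pow₀ (by norm_num)
    linarith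

/-- The exact value at powers of `4`. -/
theorem excess_four_pow (k : ℕ) : excess (4 ^ (k + 1)) = 2 * 3 ^ k := by
  have hD : ∀ j, weightSum (4 ^ j) = 2 * 3 ^ j := by
    intro j
    induction j with
    | zero => simp [weightSum, sgn, wt]
    | succ j ih =>
      rw [pow_succ' 4, weightSum_four_mul, ih, pow_succ]
      ring
  have hF : plainSum (4 ^ (k + 1)) = 0 := by
    rw [show 4 ^ (k + 1) = 2 * (2 * 4 ^ k) by ring]
    exact (abs_plainSum_le _).2
  have h := three_mul_excess (4 ^ (k + 1))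
  rw [hF, hD, pow_succ (3 : ℤ)] at h
  linarith

theorem excess_eq_card (N : ℕ) : excess N =
    (#((range N).filter fun n => n % 3 = 0 ∧ Even (Nat.digits 2 n).sum) : ℤ) -
      #((range N).filter fun n => n % 3 = 0 ∧ Odd (Nat.digits 2 n).sum) := by
  simp only [excess, card_filter, sum_filter, Nat.cast_sum, ← sum_sub_distrib]
  refine sum_congr rfl fun n _ => ?_
  rw [sgn_eq_ite]
  by_cases h : n % 3 = 0
  · by_cases he : Even (Nat.digits 2 n).sum
    · simp [h, he, Nat.not_odd_iff_even.2 he]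
    · simp [h, he, Nat.not_even_iff_odd.1 he]
  · simp [h]

end FA.NewmanDigits
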